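import Fermat.Agent.HeckeEigen.Integral

/-!
# Lifting maximal ideals of the Hecke algebra to eigenforms (Deligne–Serre)

Every prime `P` of `heckeAlgebra N 2 S` is the pull back of a prime of `ℤ̄` along the character of
an eigenform; maximal ideals come from maximal ideals.
-/

set_option autoImplicit false

noncomputable section

open UpperHalfPlane ModularFormClass

namespace Fermat.Agent.HeckeEigen

local notation "Γ₀(" N ")" => CongruenceSubgroup.Gamma0 N

variable {N : ℕ} [NeZero N]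

/-- The character of the Hecke algebra on an eigenform, with values in the algebraic integers. -/
def eigenCharInt (h : CuspForm.HasIntegralStructure N 2) {f : CuspForm Γ₀(N) 2}
    (hf : f.IsNormalizedEigenform) (S : Set ℕ) :
    CuspForm.heckeAlgebra N 2 S →+* integralClosure ℤ ℂ :=
  (eigenChar hf S).codRestrict (integralClosure ℤ ℂ) (isIntegral_eigenChar h hf)

/-- The integral eigencharacter agrees with the complex one. -/
@[simp] theorem coe_eigenCharInt (h : CuspForm.HasIntegralStructure N 2) {f : CuspForm Γ₀(N) 2}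
    (hf : f.IsNormalizedEigenform) {S : Set ℕ} (t : CuspForm.heckeAlgebra N 2 S) :
    ((eigenCharInt h hf S t : integralClosure ℤ ℂ) : ℂ) = eigenChar hf S t := rfl

/-- **Deligne–Serre lifting lemma for the Hecke algebra.** -/
theorem exists_eigenform_prime_over (h : CuspForm.HasIntegralStructure N 2) {S : Set ℕ}
    (P : Ideal (CuspForm.heckeAlgebra N 2 S)) [P.IsPrime] :
    ∃ (f : CuspForm Γ₀(N) 2) (hf : f.IsNormalizedEigenform) (Q : Ideal (integralClosure ℤ ℂ)),
      Q.IsPrime ∧ Q.comap (eigenCharInt h hf S) = P ∧ (P.IsMaximal → Q.IsMaximal) := by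
  obtain ⟨f, hf, hker⟩ := exists_eigenform_ker_le P
  let χ := eigenCharInt h hf S
  let := χ.toAlgebra
  have : IsScalarTower ℤ (CuspForm.heckeAlgebra N 2 S) (integralClosure ℤ ℂ) :=
    IsScalarTower.of_algebraMap_eq fun z => (map_intCast χ z).symm
  have : Algebra.IsIntegral (CuspForm.heckeAlgebra N 2 S) (integralClosure ℤ ℂ) :=
    Algebra.IsIntegral.tower_top ℤ
  have hle : (⊥ : Ideal (integralClosure ℤ ℂ)).comap
      (algebraMap (CuspForm.heckeAlgebra N 2 S) (integralClosure ℤ ℂ)) ≤ P := fun t ht => by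
    refine hker ?_
    have h0 : χ t = 0 := ht
    simpa [χ] using congrArg (fun x : integralClosure ℤ ℂ => (x : ℂ)) h0
  obtain ⟨Q, -, hQ, hQP⟩ := Ideal.exists_ideal_over_prime_of_isIntegral P ⊥ hle
  refine ⟨f, hf, Q, hQ, hQP, fun hP => ?_⟩
  exact Ideal.isMaximal_of_isIntegral_of_isMaximal_comap Q (hQP.symm ▸ hP)

/-- A residual system of eigenvalues of the Hecke algebra lifts to an eigenform. -/
theorem exists_eigenform_congruent (h : CuspForm.HasIntegralStructure N 2) {S : Set ℕ}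
    {F : Type*} [Field F] (ψ : CuspForm.heckeAlgebra N 2 S →+* F) (hψ : Function.Surjective ψ) :
    ∃ (f : CuspForm Γ₀(N) 2) (_ : f.IsNormalizedEigenform) (Q : Ideal (integralClosure ℤ ℂ)),
      Q.IsMaximal ∧ (∀ m : ℤ, (m : F) = 0 → (m : integralClosure ℤ ℂ) ∈ Q) ∧
      (∀ (p : ℕ) (hp : p.Prime) (hpN : ¬ p ∣ N) (hpS : p ∉ S) (m : ℤ),
        ψ (CuspForm.heckeAlgebra.T hp hpN hpS) = (m : F) →
        ∃ c : integralClosure ℤ ℂ, (c : ℂ) = qCoeff f p ∧ c - (m : integralClosure ℤ ℂ) ∈ Q) ∧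
      (∀ (p : ℕ) (hp : p.Prime) (hpN : p ∣ N) (hpS : p ∉ S) (m : ℤ),
        ψ (CuspForm.heckeAlgebra.U hp hpN hpS) = (m : F) →
        ∃ c : integralClosure ℤ ℂ, (c : ℂ) = qCoeff f p ∧ c - (m : integralClosure ℤ ℂ) ∈ Q) := by
  have hP : (RingHom.ker ψ).IsMaximal := RingHom.ker_isMaximal_of_surjective ψ hψ
  obtain ⟨f, hf, Q, -, hQP, hQ⟩ := exists_eigenform_prime_over h (RingHom.ker ψ)
  have key : ∀ (t : CuspForm.heckeAlgebra N 2 S) (m : ℤ), ψ t = (m : F) →
      eigenCharInt h hf S t - (m : integralClosure ℤ ℂ) ∈ Q := fun t m htm => by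
    have hmem : t - (m : CuspForm.heckeAlgebra N 2 S) ∈ RingHom.ker ψ := by
      rw [RingHom.mem_ker, map_sub, map_intCast, htm, sub_self]
    rw [← hQP, Ideal.mem_comap, map_sub, map_intCast] at hmem
    exact hmem
  refine ⟨f, hf, Q, hQ hP, fun m hm => ?_, fun p hp hpN hpS m hm => ?_, fun p hp hpN hpS m hm => ?_⟩
  · simpa using key 0 m (by rw [map_zero, hm])
  · exact ⟨_, by rw [coe_eigenCharInt, eigenChar_T], key _ m hm⟩
  · exact ⟨_, by rw [coe_eigenCharInt, eigenChar_U], key _ m hm⟩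

end Fermat.Agent.HeckeEigen
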