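import Mathlib.Analysis.Complex.Polynomial.Basic
import Mathlib.LinearAlgebra.FreeModule.PID
import Mathlib.LinearAlgebra.Matrix.FiniteDimensional
import Mathlib.LinearAlgebra.Eigenspace.Triangularizable
import Mathlib.RingTheory.HopkinsLevitzki
import Mathlib.RingTheory.Ideal.AssociatedPrime.Localization

/-!
# Common eigenvectors of a commutative algebra of operators

`V` is a finite dimensional vector space over an algebraically closed field `K`.

* `exists_eigenvector_of_algHom`: every character of a commutative algebra of operators has an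
  eigenvector.
* `exists_eigenvector_ker_le_prime`: if a commutative ring `R` embeds into a commutative algebra
  of operators, then every prime of `R` contains the kernel of the character of `R` on some
  common eigenvector.
* `exists_eigenvector_of_ringHom`: if the operators are integral for some coordinates, then every
  ring homomorphism `R →+* ℂ` occurs on a common eigenvector.
-/

set_option autoImplicit false

noncomputable section

namespace Fermat.Agent.HeckeEigen

section Field

variable {K V : Type*} [Field K] [AddCommGroup V] [Module K V] [FiniteDimensional K V]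

/-- Every character of a commutative algebra of operators has an eigenvector. -/
theorem exists_eigenvector_of_algHom (A : Subalgebra K (Module.End K V))
    (hA : ∀ a ∈ A, ∀ b ∈ A, Commute a b) (φ : A →ₐ[K] K) :
    ∃ v : V, v ≠ 0 ∧ ∀ a : A, (a : Module.End K V) v = φ a • v := by
  let : CommRing A :=
    { A.toRing with mul_comm := fun a b => Subtype.ext (hA _ a.2 _ b.2) }
  have : IsArtinianRing A := IsArtinianRing.of_finite K A
  have : Module.Finite A V := Module.Finite.of_restrictScalars_finite K A V
  set M : Ideal A := RingHom.ker φ with hM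
  have hMprime : M.IsPrime := RingHom.ker_isPrime φ
  have hann : Module.annihilator A V = ⊥ := by
    refine (Submodule.eq_bot_iff _).mpr fun a ha => Subtype.ext (LinearMap.ext fun v => ?_)
    exact Module.mem_annihilator.mp ha v
  have hmin : M ∈ (Module.annihilator A V).minimalPrimes := by
    rw [hann]
    refine ⟨⟨hMprime, bot_le⟩, fun q hq hqM => ?_⟩
    have := hq.1
    exact ((IsArtinianRing.isMaximal_of_isPrime q).eq_of_le hMprime.ne_top hqM).ge
  obtain ⟨-, x, hx⟩ :=
    isAssociatedPrime_iff.mp (Module.associatedPrimes.minimalPrimes_annihilator_subset_associatedPrimes A V hmin)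
  refine ⟨x, ?_, fun a => ?_⟩
  · rintro rfl
    exact hMprime.ne_top (by rw [hx]; simp)
  · have hmem : a - algebraMap K A (φ a) ∈ M := by
      rw [hM, RingHom.mem_ker, map_sub, AlgHom.commutes, Algebra.algebraMap_self_apply, sub_self]
    rw [hx, Submodule.mem_colon_singleton, Submodule.mem_bot] at hmem
    have h2 : ((a - algebraMap K A (φ a) : A) : Module.End K V) x = 0 := hmem
    simpa [sub_eq_zero] using h2

/-- Every prime of a commutative ring of commuting operators contains the kernel of the character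
of some common eigenvector. -/
theorem exists_eigenvector_ker_le_prime [IsAlgClosed K] {R : Type*} [CommRing R]
    (ι : R →+* Module.End K V) (hι : Function.Injective ι)
    (A : Subalgebra K (Module.End K V)) (hA : ∀ a ∈ A, ∀ b ∈ A, Commute a b)
    (hιA : ∀ r, ι r ∈ A) (P : Ideal R) [P.IsPrime] :
    ∃ (v : V) (χ : R →+* K), v ≠ 0 ∧ (∀ a ∈ A, ∃ c : K, a v = c • v) ∧
      (∀ r, ι r v = χ r • v) ∧ RingHom.ker χ ≤ P := by
  classical
  let : CommRing A :=
    { A.toRing with mul_comm := fun a b => Subtype.ext (hA _ a.2 _ b.2) }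
  have : IsArtinianRing A := IsArtinianRing.of_finite K A
  let j : R →+* A := ι.codRestrict A hιA
  have hj : Function.Injective j := fun a b h => hι (congrArg Subtype.val h)
  have : Fintype (MaximalSpectrum A) := Fintype.ofFinite _
  have hle : (Finset.univ.inf fun M : MaximalSpectrum A => M.asIdeal.comap j) ≤ P := by
    intro t ht
    have hnil : j t ∈ nilradical A := by
      rw [IsArtinianRing.nilradical_eq_iInf, Submodule.mem_iInf]
      intro M
      exact (Finset.inf_le (f := fun M : MaximalSpectrum A => M.asIdeal.comap j)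
        (Finset.mem_univ M)) ht
    obtain ⟨n, hn⟩ := mem_nilradical.mp hnil
    have : t ^ n = 0 := hj (by rw [map_pow, hn, map_zero])
    exact (inferInstance : P.IsPrime).mem_of_pow_mem n (this ▸ P.zero_mem)
  obtain ⟨M, -, hMP⟩ := (Ideal.IsPrime.inf_le' (inferInstance : P.IsPrime)).mp hle
  have := M.isMaximal
  let : Field (A ⧸ M.asIdeal) := Ideal.Quotient.field _
  have : Algebra.IsIntegral K (A ⧸ M.asIdeal) := Algebra.IsIntegral.of_finite K _
  let e : K ≃ₐ[K] (A ⧸ M.asIdeal) :=
    AlgEquiv.ofBijective (Algebra.ofId K _) IsAlgClosed.algebraMap_bijective_of_isIntegral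
  let φ : A →ₐ[K] K := e.symm.toAlgHom.comp (Ideal.Quotient.mkₐ K M.asIdeal)
  obtain ⟨v, hv0, hv⟩ := exists_eigenvector_of_algHom A hA φ
  refine ⟨v, φ.toRingHom.comp j, hv0, fun a ha => ⟨_, hv ⟨a, ha⟩⟩, fun r => hv (j r), ?_⟩
  intro t ht
  refine hMP ?_
  have h0 : φ (j t) = 0 := ht
  have h1 : Ideal.Quotient.mk M.asIdeal (j t) = 0 :=
    e.symm.injective (h0.trans (map_zero e.symm).symm)
  exact (Ideal.Quotient.eq_zero_iff_mem.mp h1 :)

/-- A character of a subalgebra extends to a common eigenvector of a larger algebra. -/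
theorem exists_eigenvector_extends [IsAlgClosed K] (B A : Subalgebra K (Module.End K V))
    (hBA : B ≤ A) (hA : ∀ a ∈ A, ∀ b ∈ A, Commute a b) (φ : B →ₐ[K] K) :
    ∃ v : V, v ≠ 0 ∧ (∀ a ∈ A, ∃ c : K, a v = c • v) ∧
      ∀ b : B, (b : Module.End K V) v = φ b • v := by
  let : CommRing B :=
    { B.toRing with mul_comm := fun a b => Subtype.ext (hA _ (hBA a.2) _ (hBA b.2)) }
  have : (RingHom.ker φ).IsPrime := RingHom.ker_isPrime φ
  obtain ⟨v, χ, hv0, hAv, hBv, hker⟩ := exists_eigenvector_ker_le_prime B.val.toRingHom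
    Subtype.val_injective A hA (fun b => hBA b.2) (RingHom.ker φ)
  refine ⟨v, hv0, hAv, fun b => ?_⟩
  have hc : ∀ c : K, χ (algebraMap K B c) = c := fun c => by
    refine smul_left_injective K hv0 (Eq.trans (hBv _).symm ?_)
    simp
  have hmem : b - algebraMap K B (χ b) ∈ RingHom.ker φ :=
    hker (by rw [RingHom.mem_ker, map_sub, hc, sub_self])
  rw [RingHom.mem_ker, map_sub, AlgHom.commutes, Algebra.algebraMap_self_apply, sub_eq_zero] at hmem
  rw [hmem]
  exact hBv b

end Field

section Integral

variable {V : Type*} [AddCommGroup V] [Module ℂ V]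

/-- A complex linear relation among integer vectors is a combination of integer relations: a
linear functional killing all integer relations kills every complex one. -/
theorem sum_mul_eq_zero_of_int_relations {ι κ : Type*} [Fintype ι] (v : ι → κ → ℤ) (z : ι → ℂ)
    (hrel : ∀ n : ι → ℤ, (∀ j, ∑ i, n i * v i j = 0) → ∑ i, (n i : ℂ) * z i = 0)
    (c : ι → ℂ) (hc : ∀ j, ∑ i, c i * (v i j : ℂ) = 0) : ∑ i, c i * z i = 0 := by
  classical
  -- rational relations are killed
  have hQ : ∀ q : ι → ℚ, (∀ j, ∑ i, q i * (v i j : ℚ) = 0) → ∑ i, (q i : ℂ) * z i = 0 := by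
    intro q hq
    obtain ⟨⟨d, hd⟩, hd'⟩ := IsLocalization.exist_integer_multiples (nonZeroDivisors ℤ) Finset.univ q
    choose n hn using fun i => hd' i (Finset.mem_univ i)
    have hn' : ∀ i, (n i : ℚ) = (d : ℚ) * q i := fun i => by
      simpa [zsmul_eq_mul] using hn i
    have h1 : ∀ j, ∑ i, n i * v i j = 0 := fun j => by
      have : (∑ i, (n i : ℚ) * (v i j : ℚ)) = 0 := by
        simp only [hn', mul_assoc, ← Finset.mul_sum, hq j, mul_zero]
      exact_mod_cast this
    have h2 := hrel n h1
    have hnC : ∀ i, (n i : ℂ) = (d : ℂ) * (q i : ℂ) := fun i => by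
      have := congrArg (fun x : ℚ => (x : ℂ)) (hn' i)
      simpa using this
    simp only [hnC, mul_assoc, ← Finset.mul_sum] at h2
    exact (mul_eq_zero.mp h2).resolve_left (Int.cast_ne_zero.mpr (nonZeroDivisors.ne_zero hd))
  -- decompose `c` in a basis of its ℚ-span
  let W : Submodule ℚ ℂ := Submodule.span ℚ (Set.range c)
  have : Module.Finite ℚ W := Module.Finite.span_of_finite ℚ (Set.finite_range c)
  let b := Module.finBasis ℚ W
  let w : ι → W := fun i => ⟨c i, Submodule.subset_span ⟨i, rfl⟩⟩
  have hrepr : ∀ i, c i = ∑ k, ((b.repr (w i) k : ℚ) : ℂ) * (b k : ℂ) := fun i => by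
    have h := congrArg W.subtype (b.sum_repr (w i))
    rw [map_sum] at h
    simp only [map_smul, Rat.smul_def] at h
    exact h.symm
  have hk : ∀ k, ∑ i, ((b.repr (w i) k : ℚ) : ℂ) * z i = 0 := fun k => by
    refine hQ (fun i => b.repr (w i) k) fun j => ?_
    have h0 : (∑ i, (v i j : ℚ) • w i) = 0 := by
      apply Subtype.ext
      simpa [Rat.smul_def, w, mul_comm] using hc j
    have := congrArg (fun x => b.repr x k) h0
    simpa [mul_comm] using this
  calc ∑ i, c i * z i = ∑ i, ∑ k, (((b.repr (w i) k : ℚ) : ℂ) * (b k : ℂ)) * z i := by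
        simp only [hrepr, Finset.sum_mul]
    _ = ∑ k, (b k : ℂ) * ∑ i, ((b.repr (w i) k : ℚ) : ℂ) * z i := by
        rw [Finset.sum_comm]
        simp only [Finset.mul_sum]
        exact Finset.sum_congr rfl fun k _ => Finset.sum_congr rfl fun i _ => by ring
    _ = 0 := by simp [hk]

/-- If the operators in `R` are integral in some injective coordinates `Θ` on `End V`, then every
ring homomorphism `ψ : R →+* ℂ` is the character of a common eigenvector of `A ⊇ R`. -/
theorem exists_eigenvector_of_ringHom [FiniteDimensional ℂ V] {R : Type*} [CommRing R]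
    (ι : R →+* Module.End ℂ V) (A : Subalgebra ℂ (Module.End ℂ V))
    (hA : ∀ a ∈ A, ∀ b ∈ A, Commute a b) (hιA : ∀ r, ι r ∈ A)
    {κ : Type*} (Θ : Module.End ℂ V →ₗ[ℂ] (κ → ℂ)) (hι : Function.Injective ι)
    (hΘι : ∀ r j, ∃ m : ℤ, Θ (ι r) j = (m : ℂ)) (hΘ : Function.Injective Θ) (ψ : R →+* ℂ) :
    ∃ v : V, v ≠ 0 ∧ (∀ a ∈ A, ∃ c : ℂ, a v = c • v) ∧ ∀ r, ι r v = ψ r • v := by
  classical
  choose m hm using hΘι
  let W : Submodule ℂ (Module.End ℂ V) := Submodule.span ℂ (Set.range ι)
  -- `ψ` extends ℂ-linearly to the span of the image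
  have key : ∀ l : R →₀ ℂ, Finsupp.linearCombination ℂ ι l = 0 →
      Finsupp.linearCombination ℂ ψ l = 0 := by
    intro l hl
    rw [Finsupp.linearCombination_apply, Finsupp.sum, ← Finset.sum_coe_sort] at hl ⊢
    simp only [smul_eq_mul]
    refine sum_mul_eq_zero_of_int_relations (fun (i : l.support) j => m i j) (fun i => ψ i) ?_
      (fun i => l i) fun j => ?_
    · intro n hn
      have h0 : ι (∑ i : l.support, n i • (i : R)) = 0 := by
        refine hΘ (funext fun j => ?_)
        have e : ∀ i : l.support, Θ (ι (n i • (i : R))) = n i • Θ (ι i) := fun i =>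
          (congrArg Θ (map_zsmul ι _ _)).trans (map_zsmul Θ _ _)
        rw [map_sum, map_sum, map_zero, Pi.zero_apply, Finset.sum_apply]
        rw [Finset.sum_congr rfl fun i _ => congrFun (e i) j]
        simp only [Pi.smul_apply, hm, zsmul_eq_mul]
        exact_mod_cast hn j
      have := congrArg ψ (hι (h0.trans (map_zero ι).symm))
      simpa [map_sum, zsmul_eq_mul] using this
    · have := congrArg (fun x => Θ x j) hl
      simpa [map_sum, hm, mul_comm] using this
  let B : Subalgebra ℂ (Module.End ℂ V) := W.toSubalgebra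
    (Submodule.subset_span ⟨1, map_one ι⟩) fun x y hx hy => by
      have : W * W ≤ W := by
        rw [Submodule.span_mul_span, Submodule.span_le]
        rintro _ ⟨_, ⟨r, rfl⟩, _, ⟨s, rfl⟩, rfl⟩
        exact Submodule.subset_span ⟨r * s, map_mul ι r s⟩
      exact this (Submodule.mul_mem_mul hx hy)
  have hrange : LinearMap.range (Finsupp.linearCombination ℂ (ι : R → Module.End ℂ V)) = W :=
    Finsupp.range_linearCombination ℂ
  have hex : ∀ b : B, ∃ l : R →₀ ℂ, Finsupp.linearCombination ℂ ι l = (b : Module.End ℂ V) :=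
    fun b => LinearMap.mem_range.mp (hrange.symm ▸ b.2)
  choose pre hpre using hex
  let Φ : B → ℂ := fun b => Finsupp.linearCombination ℂ ψ (pre b)
  have hΦ : ∀ (b : B) (l : R →₀ ℂ), Finsupp.linearCombination ℂ ι l = (b : Module.End ℂ V) →
      Φ b = Finsupp.linearCombination ℂ ψ l := fun b l hl => by
    have := key (pre b - l) (by rw [map_sub, hpre, hl, sub_self])
    rwa [map_sub, sub_eq_zero] at this
  have hΦι : ∀ (r : R) (hr : ι r ∈ B), Φ ⟨ι r, hr⟩ = ψ r := fun r hr => by
    rw [hΦ ⟨ι r, hr⟩ (Finsupp.single r 1) (by simp)]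
    simp
  let Φl : B →ₗ[ℂ] ℂ :=
    { toFun := Φ
      map_add' := fun x y => by
        rw [hΦ (x + y) (pre x + pre y) (by rw [map_add, hpre, hpre]; rfl), map_add]
      map_smul' := fun c x => by
        rw [hΦ (c • x) (c • pre x) (by rw [map_smul, hpre]; rfl), map_smul]
        rfl }
  have hmul : ∀ x y : B, Φl (x * y) = Φl x * Φl y := by
    have hgen : ∀ z : B, z ∈ Submodule.span ℂ {b : B | ∃ r, (b : Module.End ℂ V) = ι r} := by
      intro z
      have hz : (z : Module.End ℂ V) ∈ W := z.2
      have : Submodule.map (B.val.toLinearMap)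
          (Submodule.span ℂ {b : B | ∃ r, (b : Module.End ℂ V) = ι r}) = W := by
        rw [Submodule.map_span]
        refine congrArg _ (Set.ext fun t => ⟨?_, ?_⟩)
        · rintro ⟨b, ⟨r, hr⟩, rfl⟩
          exact ⟨r, hr.symm⟩
        · rintro ⟨r, rfl⟩
          exact ⟨⟨ι r, Submodule.subset_span ⟨r, rfl⟩⟩, ⟨r, rfl⟩, rfl⟩
      rw [← this] at hz
      obtain ⟨w, hw, hwz⟩ := hz
      rwa [Subtype.ext (hwz : (w : Module.End ℂ V) = z)] at hw
    intro x y
    induction hgen x using Submodule.span_induction with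
    | zero => simp
    | add a b _ _ ha hb => rw [add_mul, map_add, ha, hb, map_add, add_mul]
    | smul c a _ ha => rw [smul_mul_assoc, map_smul, ha, map_smul, smul_mul_assoc]
    | mem a ha =>
      obtain ⟨r, hr⟩ := ha
      induction hgen y using Submodule.span_induction with
      | zero => simp
      | add a' b _ _ ha' hb => rw [mul_add, map_add, ha', hb, map_add, mul_add]
      | smul c a' _ ha' => rw [mul_smul_comm, map_smul, ha', map_smul, mul_smul_comm]
      | mem a' ha' =>
        obtain ⟨s, hs⟩ := ha'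
        obtain ⟨x₁, hx₁⟩ := a
        obtain ⟨y₁, hy₁⟩ := a'
        subst hr hs
        have hrs : ι (r * s) ∈ B := Submodule.subset_span ⟨r * s, rfl⟩
        have e : (⟨ι r, hx₁⟩ * ⟨ι s, hy₁⟩ : B) = ⟨ι (r * s), hrs⟩ :=
          Subtype.ext (map_mul ι r s).symm
        change Φ _ = Φ _ * Φ _
        rw [e, hΦι, hΦι, hΦι, map_mul]
  have h1 : (1 : B) = ⟨ι 1, Submodule.subset_span ⟨1, rfl⟩⟩ := Subtype.ext (map_one ι).symm
  let φ : B →ₐ[ℂ] ℂ := AlgHom.ofLinearMap Φl
    ((congrArg Φ h1).trans ((hΦι 1 _).trans (map_one ψ))) hmul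
  have hBA : B ≤ A := fun x hx => by
    refine (Submodule.span_le (p := Subalgebra.toSubmodule A)).mpr ?_ hx
    rintro _ ⟨r, rfl⟩
    exact hιA r
  obtain ⟨v, hv0, hAv, hBv⟩ := exists_eigenvector_extends B A hBA hA φ
  refine ⟨v, hv0, hAv, fun r => ?_⟩
  have := hBv ⟨ι r, Submodule.subset_span ⟨r, rfl⟩⟩
  rwa [show φ ⟨ι r, Submodule.subset_span ⟨r, rfl⟩⟩ = ψ r from hΦι r _] at this

end Integral

end Fermat.Agent.HeckeEigen
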