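import Fermat.Agent.HeckeEigen.Eigenform
import Fermat.Agent.HeckeEigen.CommonEigen
import Fermat.Prelude.Def_CuspForm_HeckeAlgebra

/-!
# Characters of the Hecke algebra and eigenforms

`eigenChar hf S` is the character of `CuspForm.heckeAlgebra N 2 S` on a normalised eigenform.
Every prime of the Hecke algebra contains the kernel of such a character
(`exists_eigenform_ker_le`); this needs no integrality.
-/

set_option autoImplicit false

noncomputable section

open UpperHalfPlane ModularFormClass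

namespace Fermat.Agent.HeckeEigen

local notation "Γ₀(" N ")" => CongruenceSubgroup.Gamma0 N

variable (N : ℕ) [NeZero N] (k : ℤ)

/-- The complex algebra generated by all Hecke operators. -/
def heckeAdjoin : Subalgebra ℂ (Module.End ℂ (CuspForm Γ₀(N) k)) :=
  Algebra.adjoin ℂ (CuspForm.heckeGenerators N k ∅)

/-- The Hecke operators generate a commutative algebra. -/
theorem commute_heckeAdjoin :
    ∀ a ∈ heckeAdjoin N k, ∀ b ∈ heckeAdjoin N k, Commute a b := fun _a ha _b hb => by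
  refine Algebra.commute_of_mem_adjoin_of_forall_mem_commute hb fun x hx => ?_
  exact (Algebra.commute_of_mem_adjoin_of_forall_mem_commute ha fun y hy =>
    CuspForm.commute_of_mem_heckeGenerators hx hy).symm

/-- The Hecke algebra away from `S` lies in the full one. -/
theorem heckeAlgebra_le_heckeAdjoin (S : Set ℕ) :
    ∀ t ∈ CuspForm.heckeAlgebra N k S, t ∈ heckeAdjoin N k := fun t ht => by
  induction ht using Algebra.adjoin_induction with
  | mem x hx =>
    exact Algebra.subset_adjoin (CuspForm.heckeGenerators_mono (Set.empty_subset S) hx)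
  | algebraMap r =>
    rw [eq_intCast]
    exact intCast_mem _ r
  | add x y _ _ hx hy => exact add_mem hx hy
  | mul x y _ _ hx hy => exact mul_mem hx hy

theorem heckeTLin_mem_heckeAdjoin {p : ℕ} (hp : p.Prime) (hpN : ¬ p ∣ N) :
    CuspForm.heckeTLin k hp hpN ∈ heckeAdjoin N k :=
  Algebra.subset_adjoin (CuspForm.heckeTLin_mem_heckeGenerators hp hpN (Set.notMem_empty _))

theorem heckeULin_mem_heckeAdjoin {p : ℕ} (hp : p.Prime) (hpN : p ∣ N) :
    CuspForm.heckeULin k hpN ∈ heckeAdjoin N k :=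
  Algebra.subset_adjoin (CuspForm.heckeULin_mem_heckeGenerators hp hpN (Set.notMem_empty _))

variable {N k}

theorem isHeckeEigenvector_of_heckeAdjoin {v : CuspForm Γ₀(N) 2}
    (h : ∀ a ∈ heckeAdjoin N 2, ∃ c : ℂ, a v = c • v) : IsHeckeEigenvector N v :=
  ⟨fun _ hp hpN => h _ (heckeTLin_mem_heckeAdjoin N 2 hp hpN),
    fun _ hp hpN => h _ (heckeULin_mem_heckeAdjoin N 2 hp hpN)⟩

theorem heckeAdjoin_apply_eigenvector {f : CuspForm Γ₀(N) 2} (hf : IsHeckeEigenvector N f)
    {a : Module.End ℂ (CuspForm Γ₀(N) 2)} (ha : a ∈ heckeAdjoin N 2) :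
    ∃ c : ℂ, a f = c • f := by
  induction ha using Algebra.adjoin_induction with
  | mem x hx =>
    rcases hx with ⟨ℓ, hℓ, hℓN, -, rfl⟩ | ⟨q, hqN, hq, -, rfl⟩
    · exact hf.1 ℓ hℓ hℓN
    · exact hf.2 q hq hqN
  | algebraMap r => exact ⟨r, rfl⟩
  | add x y _ _ hx hy =>
    obtain ⟨a, ha⟩ := hx
    obtain ⟨b, hb⟩ := hy
    exact ⟨a + b, by rw [LinearMap.add_apply, ha, hb, add_smul]⟩
  | mul x y _ _ hx hy =>
    obtain ⟨a, ha⟩ := hx
    obtain ⟨b, hb⟩ := hy
    exact ⟨b * a, by rw [Module.End.mul_apply, hb, map_smul, ha, smul_smul]⟩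

theorem heckeAlgebra_apply_eigenform {S : Set ℕ} {f : CuspForm Γ₀(N) 2}
    (hf : f.IsNormalizedEigenform) {t : Module.End ℂ (CuspForm Γ₀(N) 2)}
    (ht : t ∈ CuspForm.heckeAlgebra N 2 S) : t f = qCoeff (t f) 1 • f := by
  obtain ⟨c, hc⟩ := heckeAdjoin_apply_eigenvector (isHeckeEigenvector_of_isNormalizedEigenform hf)
    (heckeAlgebra_le_heckeAdjoin N 2 S t ht)
  rw [hc, qCoeff_smul, hf.qCoeff_one, mul_one]

/-- The character of the Hecke algebra on a normalised eigenform. -/
def eigenChar {f : CuspForm Γ₀(N) 2} (hf : f.IsNormalizedEigenform) (S : Set ℕ) :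
    CuspForm.heckeAlgebra N 2 S →+* ℂ where
  toFun t := qCoeff ((t : Module.End ℂ (CuspForm Γ₀(N) 2)) f) 1
  map_one' := hf.qCoeff_one
  map_mul' s t := by
    rw [MulMemClass.coe_mul, Module.End.mul_apply,
      heckeAlgebra_apply_eigenform hf t.2, map_smul, qCoeff_smul, qCoeff_smul,
      hf.qCoeff_one]
    ring
  map_zero' := qCoeff_zero_form 1
  map_add' s t := qCoeff_add _ _ 1

theorem eigenChar_apply {f : CuspForm Γ₀(N) 2} (hf : f.IsNormalizedEigenform) {S : Set ℕ}
    (t : CuspForm.heckeAlgebra N 2 S) :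
    eigenChar hf S t = qCoeff ((t : Module.End ℂ (CuspForm Γ₀(N) 2)) f) 1 := rfl

/-- A Hecke operator acts on an eigenform by its eigencharacter. -/
theorem eigenChar_smul {f : CuspForm Γ₀(N) 2} (hf : f.IsNormalizedEigenform) {S : Set ℕ}
    (t : CuspForm.heckeAlgebra N 2 S) :
    (t : Module.End ℂ (CuspForm Γ₀(N) 2)) f = eigenChar hf S t • f :=
  heckeAlgebra_apply_eigenform hf t.2

/-- The eigencharacter at `T_p` is the `p`-th coefficient. -/
theorem eigenChar_T {f : CuspForm Γ₀(N) 2} (hf : f.IsNormalizedEigenform) {S : Set ℕ} {p : ℕ}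
    (hp : p.Prime) (hpN : ¬ p ∣ N) (hpS : p ∉ S) :
    eigenChar hf S (CuspForm.heckeAlgebra.T hp hpN hpS) = qCoeff f p := by
  rw [eigenChar_apply, CuspForm.heckeAlgebra.coe_T, qCoeff_one_heckeTLin]

/-- The eigencharacter at `U_p` is the `p`-th coefficient. -/
theorem eigenChar_U {f : CuspForm Γ₀(N) 2} (hf : f.IsNormalizedEigenform) {S : Set ℕ} {p : ℕ}
    (hp : p.Prime) (hpN : p ∣ N) (hpS : p ∉ S) :
    eigenChar hf S (CuspForm.heckeAlgebra.U hp hpN hpS) = qCoeff f p := by
  rw [eigenChar_apply, CuspForm.heckeAlgebra.coe_U, qCoeff_one_heckeULin hp.ne_zero]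

/-- A character of the Hecke algebra on a common eigenvector is the character of an eigenform. -/
theorem exists_eigenform_eq_eigenChar {S : Set ℕ} {v : CuspForm Γ₀(N) 2} (hv0 : v ≠ 0)
    (hA : ∀ a ∈ heckeAdjoin N 2, ∃ c : ℂ, a v = c • v)
    {χ : CuspForm.heckeAlgebra N 2 S →+* ℂ}
    (hχ : ∀ t : CuspForm.heckeAlgebra N 2 S, (t : Module.End ℂ (CuspForm Γ₀(N) 2)) v = χ t • v) :
    ∃ (f : CuspForm Γ₀(N) 2) (hf : f.IsNormalizedEigenform), eigenChar hf S = χ := by
  obtain ⟨g, c, hc, hg, rfl⟩ :=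
    exists_isNormalizedEigenform_of_eigenvector hv0 (isHeckeEigenvector_of_heckeAdjoin hA)
  refine ⟨g, hg, RingHom.ext fun t => ?_⟩
  have h := hχ t
  rw [map_smul, eigenChar_smul hg, smul_comm] at h
  exact smul_left_injective ℂ hv0 h

/-- **Every prime of the Hecke algebra contains the kernel of an eigenform character.** -/
theorem exists_eigenform_ker_le {S : Set ℕ} (P : Ideal (CuspForm.heckeAlgebra N 2 S))
    [P.IsPrime] :
    ∃ (f : CuspForm Γ₀(N) 2) (hf : f.IsNormalizedEigenform),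
      RingHom.ker (eigenChar hf S) ≤ P := by
  obtain ⟨v, χ, hv0, hA, hχ, hker⟩ := exists_eigenvector_ker_le_prime
    (CuspForm.heckeAlgebra N 2 S).val.toRingHom Subtype.val_injective (heckeAdjoin N 2)
    (commute_heckeAdjoin N 2) (fun t => heckeAlgebra_le_heckeAdjoin N 2 S _ t.2) P
  obtain ⟨f, hf, e⟩ := exists_eigenform_eq_eigenChar (χ := χ) hv0 hA hχ
  exact ⟨f, hf, e ▸ hker⟩

/-- The generators map onto the coefficient ring: every `qCoeff f n` is in the image of
`eigenChar hf ∅`. -/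
theorem qCoeff_mem_range_eigenChar {f : CuspForm Γ₀(N) 2} (hf : f.IsNormalizedEigenform) (n : ℕ) :
    qCoeff f n ∈ (eigenChar hf ∅).range := by
  induction n using Nat.strong_induction_on with
  | _ n ih =>
    rcases eq_or_ne n 0 with rfl | hn0
    · rw [qCoeff_cusp_zero]
      exact zero_mem _
    rcases eq_or_ne n 1 with rfl | hn1
    · rw [hf.qCoeff_one]
      exact one_mem _
    obtain ⟨p, hp, k, rfl⟩ := Nat.exists_prime_and_dvd hn1
    have hk : k ≠ 0 := by rintro rfl; simp at hn0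
    have hlt : k < p * k := lt_mul_of_one_lt_left (Nat.pos_of_ne_zero hk) hp.one_lt
    have hk' := ih k hlt
    rw [mul_comm p k]
    by_cases hpN : p ∣ N
    · rw [qCoeff_mul_bad hf hp hpN]
      exact mul_mem ⟨_, eigenChar_U hf hp hpN (Set.notMem_empty _)⟩ hk'
    · have hp' : qCoeff f p ∈ (eigenChar hf ∅).range :=
        ⟨_, eigenChar_T hf hp hpN (Set.notMem_empty _)⟩
      rw [eq_sub_of_add_eq (qCoeff_mul_good hf hp hpN k)]
      refine sub_mem (mul_mem hp' hk') ?_
      split_ifs with h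
      · exact mul_mem (natCast_mem _ p) (ih _ (lt_of_le_of_lt (Nat.div_le_self k p) hlt))
      · exact zero_mem _

end Fermat.Agent.HeckeEigen
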