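import Fermat.Agent.HeckeEigen.Characters
import Fermat.Prelude.Def_CuspForm_IntegralStructure
import Fermat.Prelude.Def_CuspForm_IntegralLattice
import Fermat.Prelude.Thm_CuspForm_intLattice_fg
import Fermat.Prelude.Thm_CuspForm_mem_intLattice_of_mem_heckeAlgebra

/-!
# Consequences of an integral structure

If `S_k(Γ₀(N))` has a basis with integral `q`-expansions, then the Hecke algebra is finite over
`ℤ`, each of its complex characters is the character of an eigenform, and the coefficients of
eigenforms are algebraic integers generating a number field.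
-/

set_option autoImplicit false

noncomputable section

open UpperHalfPlane ModularFormClass

namespace Fermat.Agent.HeckeEigen

local notation "Γ₀(" N ")" => CongruenceSubgroup.Gamma0 N

variable {N : ℕ} {k : ℤ}

/-- The integral lattice consists of the forms with integral expansions. -/
theorem mem_intLattice_iff_qCoeff {f : CuspForm Γ₀(N) k} :
    f ∈ CuspForm.intLattice N k ↔ ∀ n : ℕ, ∃ m : ℤ, qCoeff f n = (m : ℂ) := by
  refine ⟨fun hf => ?_, fun hf => Submodule.subset_span hf⟩
  induction hf using Submodule.span_induction with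
  | mem x hx => exact hx
  | zero => exact fun n => ⟨0, by rw [qCoeff_zero_form, Int.cast_zero]⟩
  | add x y _ _ hx hy =>
    intro n
    obtain ⟨a, ha⟩ := hx n
    obtain ⟨b, hb⟩ := hy n
    exact ⟨a + b, by rw [qCoeff_add, ha, hb, Int.cast_add]⟩
  | smul c x _ hx =>
    intro n
    obtain ⟨a, ha⟩ := hx n
    exact ⟨c * a, by rw [qCoeff_zsmul, ha, Int.cast_mul]⟩

theorem qIntegralSet_eq (N : ℕ) :
    CuspForm.qIntegralSet N =
      {f : CuspForm Γ₀(N) 2 | ∀ n : ℕ, ∃ m : ℤ, qCoeff f n = (m : ℂ)} := by
  ext f
  simp only [CuspForm.qIntegralSet, Set.mem_ofPred_eq]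
  refine forall_congr' fun n => ?_
  rw [Subring.mem_bot]
  exact exists_congr fun m => eq_comm

/-- The two forms of the integral structure hypothesis agree in weight two. -/
theorem hasIntegralStructure_two_iff (N : ℕ) :
    CuspForm.HasIntegralStructure N 2 ↔ CuspForm.HasIntegralBasis N := by
  rw [CuspForm.HasIntegralStructure, CuspForm.HasIntegralBasis, CuspForm.intLattice,
    Submodule.span_span_of_tower, qIntegralSet_eq]

/-- An integral basis gives an integral structure in weight two. -/
theorem hasIntegralStructure_of_hasIntegralBasis {N : ℕ} (h : CuspForm.HasIntegralBasis N) :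
    CuspForm.HasIntegralStructure N 2 := (hasIntegralStructure_two_iff N).mpr h

/-- Integral coordinates on the endomorphisms of `S_k(Γ₀(N))`. -/
theorem exists_integral_coordinates [NeZero N] (h : CuspForm.HasIntegralStructure N k)
    (hk : 1 ≤ k) :
    ∃ (n : ℕ) (Θ : Module.End ℂ (CuspForm Γ₀(N) k) →ₗ[ℂ] (Fin n × Fin (sturmB N k + 1) → ℂ)),
      Function.Injective Θ ∧ ∀ (S : Set ℕ), ∀ t ∈ CuspForm.heckeAlgebra N k S, ∀ j,
        ∃ m : ℤ, Θ t j = (m : ℂ) := by
  obtain ⟨n, s, hs⟩ := Submodule.fg_iff_exists_fin_generating_family.mp (CuspForm.intLattice_fg N k)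
  have hspan : Submodule.span ℂ (Set.range s) = ⊤ := by
    rw [← Submodule.span_span_of_tower ℤ, hs]
    exact h
  refine ⟨n, LinearMap.pi fun j =>
    ((LinearMap.proj j.2).comp (truncLin N k)).comp (LinearMap.applyₗ (s j.1)), ?_, ?_⟩
  · refine (injective_iff_map_eq_zero _).mpr fun t ht => LinearMap.ext_on_range hspan fun i => ?_
    refine truncLin_injective N k ?_
    rw [LinearMap.zero_apply, map_zero]
    exact funext fun j => congrFun ht (i, j)
  · intro S t ht j
    have hmem : s j.1 ∈ CuspForm.intLattice N k := hs ▸ Submodule.subset_span ⟨j.1, rfl⟩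
    exact mem_intLattice_iff_qCoeff.mp
      (CuspForm.mem_intLattice_of_mem_heckeAlgebra hk ht hmem) (j.2 : ℕ)

/-- With an integral structure the Hecke algebra is a finite `ℤ`-module. -/
theorem moduleFinite_heckeAlgebra [NeZero N] (h : CuspForm.HasIntegralStructure N k)
    (hk : 1 ≤ k) (S : Set ℕ) : Module.Finite ℤ (CuspForm.heckeAlgebra N k S) := by
  classical
  obtain ⟨n, Θ, hΘ, hint⟩ := exists_integral_coordinates h hk
  let e : (Fin n × Fin (sturmB N k + 1) → ℤ) →ₗ[ℤ] (Fin n × Fin (sturmB N k + 1) → ℂ) :=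
    LinearMap.pi fun j => (Algebra.linearMap ℤ ℂ).comp (LinearMap.proj j)
  let T : CuspForm.heckeAlgebra N k S →ₗ[ℤ] (Fin n × Fin (sturmB N k + 1) → ℂ) :=
    (Θ.restrictScalars ℤ).comp (CuspForm.heckeAlgebra N k S).val.toLinearMap
  have hT : Function.Injective T := fun a b hab => Subtype.ext (hΘ hab)
  have hle : LinearMap.range T ≤ LinearMap.range e := by
    rintro _ ⟨t, rfl⟩
    choose m hm using hint S _ t.2
    exact ⟨m, funext fun j => by simpa [e, T] using (hm j).symm⟩
  have hfg : (LinearMap.range T).FG := by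
    have : (LinearMap.range e).FG := by
      rw [LinearMap.range_eq_map]
      exact Module.Finite.fg_top.map e
    exact this.of_le hle
  rw [LinearMap.range_eq_map] at hfg
  exact Module.finite_def.mpr (Submodule.fg_of_fg_map_injective T hT hfg)

/-- **Every complex character of the Hecke algebra comes from an eigenform.** -/
theorem exists_eigenform_of_ringHom [NeZero N] (h : CuspForm.HasIntegralStructure N 2) {S : Set ℕ}
    (ψ : CuspForm.heckeAlgebra N 2 S →+* ℂ) :
    ∃ (f : CuspForm Γ₀(N) 2) (hf : f.IsNormalizedEigenform), eigenChar hf S = ψ := by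
  obtain ⟨n, Θ, hΘ, hint⟩ := exists_integral_coordinates h one_le_two
  obtain ⟨v, hv0, hA, hψ⟩ := exists_eigenvector_of_ringHom
    (CuspForm.heckeAlgebra N 2 S).val.toRingHom (heckeAdjoin N 2) (commute_heckeAdjoin N 2)
    (fun t => heckeAlgebra_le_heckeAdjoin N 2 S _ t.2) Θ Subtype.val_injective
    (fun t j => hint S _ t.2 j) hΘ ψ
  exact exists_eigenform_eq_eigenChar hv0 hA hψ

/-- Eigenvalues of the Hecke algebra on eigenforms are algebraic integers. -/
theorem isIntegral_eigenChar [NeZero N] (h : CuspForm.HasIntegralStructure N 2)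
    {f : CuspForm Γ₀(N) 2} (hf : f.IsNormalizedEigenform) {S : Set ℕ}
    (t : CuspForm.heckeAlgebra N 2 S) : IsIntegral ℤ (eigenChar hf S t) := by
  have := moduleFinite_heckeAlgebra h one_le_two S
  exact (IsIntegral.of_finite ℤ t).map (eigenChar hf S).toIntAlgHom

/-- **Coefficients of eigenforms are algebraic integers.** -/
theorem isIntegral_qCoeff [NeZero N] (h : CuspForm.HasIntegralStructure N 2)
    {f : CuspForm Γ₀(N) 2} (hf : f.IsNormalizedEigenform) (n : ℕ) :
    IsIntegral ℤ (qCoeff f n) := by
  obtain ⟨t, ht⟩ := qCoeff_mem_range_eigenChar hf n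
  exact ht ▸ isIntegral_eigenChar h hf t

/-- The coefficients of a normalised eigenform are algebraic integers. -/
theorem qCoeff_mem_integralClosure [NeZero N] (h : CuspForm.HasIntegralStructure N 2)
    {f : CuspForm Γ₀(N) 2} (hf : f.IsNormalizedEigenform) (n : ℕ) :
    qCoeff f n ∈ integralClosure ℤ ℂ :=
  isIntegral_qCoeff h hf n

end Fermat.Agent.HeckeEigen
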