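import Fermat.Agent.HeckeEigen.QCoeff
import Mathlib.Data.Nat.Factorization.Basic

/-!
# Normalised eigenforms are the Hecke eigenvectors with `a₁ = 1`

`CuspForm.IsNormalizedEigenform` is a set of relations on `q`-coefficients.  Here it is identified
with: simultaneous eigenvector of all `T_ℓ` (`ℓ ∤ N`) and `U_q` (`q ∣ N`) with first coefficient
`1`.
-/

set_option autoImplicit false

noncomputable section

open UpperHalfPlane ModularFormClass

namespace Fermat.Agent.HeckeEigen

variable {N : ℕ}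

local notation "Γ₀(" N ")" => CongruenceSubgroup.Gamma0 N

/-- A nonzero index is a prime power times an integer prime to that prime. -/
theorem exists_eq_pow_mul {p n : ℕ} (hp : p.Prime) (hn : n ≠ 0) :
    ∃ r m : ℕ, n = p ^ r * m ∧ p.Coprime m := by
  obtain ⟨r, m, hm, rfl⟩ := Nat.exists_eq_pow_mul_and_not_dvd hn p hp.ne_one
  exact ⟨r, m, rfl, hp.coprime_iff_not_dvd.mpr hm⟩

/-- The Hecke relation `a(np) + [p ∣ n] p a(n/p) = a(p) a(n)` at a good prime. -/
theorem qCoeff_mul_good {f : CuspForm Γ₀(N) 2} (hf : f.IsNormalizedEigenform) {p : ℕ}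
    (hp : p.Prime) (hpN : ¬ p ∣ N) (n : ℕ) :
    qCoeff f (n * p) + (if p ∣ n then (p : ℂ) * qCoeff f (n / p) else 0)
      = qCoeff f p * qCoeff f n := by
  rcases eq_or_ne n 0 with rfl | hn
  · simp [qCoeff_cusp_zero]
  obtain ⟨r, m, rfl, hm⟩ := exists_eq_pow_mul hp hn
  cases r with
  | zero =>
    have hndvd : ¬ p ∣ m := hp.coprime_iff_not_dvd.mp hm
    rw [pow_zero, one_mul, if_neg hndvd, add_zero, mul_comm m p,
      hf.qCoeff_mul_of_coprime p m hm]
  | succ r =>
    have hdvd : p ∣ p ^ (r + 1) * m := dvd_mul_of_dvd_left (dvd_pow_self p r.succ_ne_zero) m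
    have hdiv : p ^ (r + 1) * m / p = p ^ r * m := by
      rw [pow_succ, mul_right_comm, Nat.mul_div_cancel _ hp.pos]
    have e1 : p ^ (r + 1) * m * p = p ^ (r + 2) * m := by rw [pow_succ p (r + 1)]; ring
    rw [if_pos hdvd, hdiv, e1, hf.qCoeff_mul_of_coprime _ _ (hm.pow_left _),
      hf.qCoeff_mul_of_coprime _ _ (hm.pow_left _), hf.qCoeff_mul_of_coprime _ _ (hm.pow_left _),
      hf.qCoeff_prime_pow_of_not_dvd p r hp hpN]
    ring

/-- The relation `a(np) = a(p) a(n)` at a bad prime. -/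
theorem qCoeff_mul_bad {f : CuspForm Γ₀(N) 2} (hf : f.IsNormalizedEigenform) {p : ℕ}
    (hp : p.Prime) (hpN : p ∣ N) (n : ℕ) :
    qCoeff f (n * p) = qCoeff f p * qCoeff f n := by
  rcases eq_or_ne n 0 with rfl | hn
  · simp [qCoeff_cusp_zero]
  obtain ⟨r, m, rfl, hm⟩ := exists_eq_pow_mul hp hn
  have e1 : p ^ r * m * p = p ^ (r + 1) * m := by rw [pow_succ]; ring
  rw [e1, hf.qCoeff_mul_of_coprime _ _ (hm.pow_left _),
    hf.qCoeff_mul_of_coprime _ _ (hm.pow_left _), ← mul_assoc]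
  congr 1
  cases r with
  | zero => simp [hf.qCoeff_one]
  | succ r => exact hf.qCoeff_prime_pow_of_dvd p r hp hpN

/-- `T_p` multiplies a normalised eigenform by its `p`-th coefficient. -/
theorem heckeTLin_apply_eigenform [NeZero N] {f : CuspForm Γ₀(N) 2}
    (hf : f.IsNormalizedEigenform) {p : ℕ} (hp : p.Prime) (hpN : ¬ p ∣ N) :
    CuspForm.heckeTLin 2 hp hpN f = qCoeff f p • f :=
  ext_qCoeff fun n => by
    rw [qCoeff_heckeTLin, qCoeff_smul, show (2 : ℤ) - 1 = 1 by norm_num, zpow_one]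
    exact qCoeff_mul_good hf hp hpN n

theorem heckeULin_apply_eigenform [NeZero N] {f : CuspForm Γ₀(N) 2}
    (hf : f.IsNormalizedEigenform) {p : ℕ} (hp : p.Prime) (hpN : p ∣ N) :
    CuspForm.heckeULin 2 hpN f = qCoeff f p • f :=
  ext_qCoeff fun n => by
    rw [qCoeff_heckeULin hp.ne_zero, qCoeff_smul]
    exact qCoeff_mul_bad hf hp hpN n

/-- The eigenvalues of a Hecke eigenvector are `a_p / a_1`: relation at a good prime. -/
theorem qCoeff_mul_of_eigen_good {f : CuspForm Γ₀(N) 2} {p : ℕ} (hp : p.Prime) (hpN : ¬ p ∣ N)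
    {c : ℂ} (h : CuspForm.heckeTLin 2 hp hpN f = c • f) (n : ℕ) :
    qCoeff f (n * p) + (if p ∣ n then (p : ℂ) * qCoeff f (n / p) else 0) = c * qCoeff f n := by
  have e := qCoeff_heckeTLin hp hpN f n
  rw [h, qCoeff_smul, show (2 : ℤ) - 1 = 1 by norm_num, zpow_one] at e
  exact e.symm

/-- Relation at a bad prime. -/
theorem qCoeff_mul_of_eigen_bad [NeZero N] {f : CuspForm Γ₀(N) 2} {p : ℕ} (hp : p.Prime)
    (hpN : p ∣ N) {c : ℂ} (h : CuspForm.heckeULin 2 hpN f = c • f) (n : ℕ) :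
    qCoeff f (n * p) = c * qCoeff f n := by
  have e := qCoeff_heckeULin hp.ne_zero hpN f n
  rw [h, qCoeff_smul] at e
  exact e.symm

/-- Simultaneous eigenvector of all Hecke operators `T_ℓ`, `U_q`. -/
def IsHeckeEigenvector (N : ℕ) [NeZero N] (f : CuspForm Γ₀(N) 2) : Prop :=
  (∀ (p : ℕ) (hp : p.Prime) (hpN : ¬ p ∣ N), ∃ c : ℂ, CuspForm.heckeTLin 2 hp hpN f = c • f) ∧
  (∀ (p : ℕ) (_ : p.Prime) (hpN : p ∣ N), ∃ c : ℂ, CuspForm.heckeULin 2 hpN f = c • f)

/-- A normalised eigenform is a Hecke eigenvector. -/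
theorem isHeckeEigenvector_of_isNormalizedEigenform [NeZero N] {f : CuspForm Γ₀(N) 2}
    (hf : f.IsNormalizedEigenform) : IsHeckeEigenvector N f :=
  ⟨fun _ hp hpN => ⟨_, heckeTLin_apply_eigenform hf hp hpN⟩,
    fun _ hp hpN => ⟨_, heckeULin_apply_eigenform hf hp hpN⟩⟩

/-- Multiples of Hecke eigenvectors are eigenvectors. -/
theorem IsHeckeEigenvector.smul [NeZero N] {f : CuspForm Γ₀(N) 2} (hf : IsHeckeEigenvector N f)
    (a : ℂ) : IsHeckeEigenvector N (a • f) := by
  constructor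
  · intro p hp hpN
    obtain ⟨c, hc⟩ := hf.1 p hp hpN
    exact ⟨c, by rw [map_smul, hc, smul_comm]⟩
  · intro p hp hpN
    obtain ⟨c, hc⟩ := hf.2 p hp hpN
    exact ⟨c, by rw [map_smul, hc, smul_comm]⟩

theorem isNormalizedEigenform_of_isHeckeEigenvector [NeZero N] {f : CuspForm Γ₀(N) 2}
    (h1 : qCoeff f 1 = 1) (hf : IsHeckeEigenvector N f) : f.IsNormalizedEigenform := by
  set a : ℕ → ℂ := fun n => qCoeff f n with ha
  have hgood : ∀ p : ℕ, p.Prime → ¬ p ∣ N → ∀ n,
      a (n * p) + (if p ∣ n then (p : ℂ) * a (n / p) else 0) = a p * a n := by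
    intro p hp hpN n
    obtain ⟨c, hc⟩ := hf.1 p hp hpN
    have hcp : c = a p := by
      have := qCoeff_mul_of_eigen_good hp hpN hc 1
      rw [if_neg hp.not_dvd_one, add_zero, one_mul, h1, mul_one] at this
      exact this.symm
    subst hcp
    exact qCoeff_mul_of_eigen_good hp hpN hc n
  have hbad : ∀ p : ℕ, p.Prime → p ∣ N → ∀ n, a (n * p) = a p * a n := by
    intro p hp hpN n
    obtain ⟨c, hc⟩ := hf.2 p hp hpN
    have hcp : c = a p := by
      have := qCoeff_mul_of_eigen_bad hp hpN hc 1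
      rw [one_mul, h1, mul_one] at this
      exact this.symm
    subst hcp
    exact qCoeff_mul_of_eigen_bad hp hpN hc n
  have hmul : ∀ m n : ℕ, m.Coprime n → a (m * n) = a m * a n := by
    intro m
    induction m using Nat.strong_induction_on with
    | _ m ih =>
      intro n hmn
      rcases eq_or_ne m 0 with rfl | hm0
      · simp [ha, qCoeff_cusp_zero]
      rcases eq_or_ne m 1 with rfl | hm1
      · simp [ha, h1]
      obtain ⟨p, hp, k, rfl⟩ := Nat.exists_prime_and_dvd hm1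
      have hk : k ≠ 0 := by rintro rfl; simp at hm0
      have hlt : k < p * k := lt_mul_of_one_lt_left (Nat.pos_of_ne_zero hk) hp.one_lt
      have hkn : k.Coprime n := hmn.of_dvd_left (dvd_mul_left k p)
      have hpn : ¬ p ∣ n :=
        hp.coprime_iff_not_dvd.mp (hmn.of_dvd_left (dvd_mul_right p k))
      have e : p * k * n = k * n * p := by ring
      rw [e, mul_comm p k]
      by_cases hpN : p ∣ N
      · rw [hbad p hp hpN (k * n), hbad p hp hpN k, ih k hlt n hkn, mul_assoc]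
      · have e1 := hgood p hp hpN (k * n)
        have e2 := hgood p hp hpN k
        by_cases hpk : p ∣ k
        · have hlt' : k / p < p * k :=
            lt_of_le_of_lt (Nat.div_le_self k p) hlt
          rw [if_pos (dvd_mul_of_dvd_left hpk n), Nat.mul_div_right_comm hpk,
            ih (k / p) hlt' n (hkn.of_dvd_left (Nat.div_dvd_of_dvd hpk)), ih k hlt n hkn] at e1
          rw [if_pos hpk] at e2
          linear_combination e1 - a n * e2
        · have hpkn : ¬ p ∣ k * n := fun h => (hp.dvd_mul.mp h).elim hpk hpn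
          rw [if_neg hpkn, add_zero, ih k hlt n hkn] at e1
          rw [if_neg hpk, add_zero] at e2
          rw [e1, e2, mul_assoc]
  refine ⟨h1, hmul, fun p r hp hpN => ?_, fun p r hp hpN => ?_⟩
  · have := hgood p hp hpN (p ^ (r + 1))
    rw [if_pos (dvd_pow_self p r.succ_ne_zero), ← pow_succ, pow_succ p r,
      Nat.mul_div_cancel _ hp.pos, ← pow_succ] at this
    exact eq_sub_of_add_eq this
  · have := hbad p hp hpN (p ^ (r + 1))
    rw [← pow_succ] at this
    exact this

/-- A nonzero simultaneous eigenvector has nonzero first coefficient. -/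
theorem qCoeff_one_ne_zero_of_isHeckeEigenvector [NeZero N] {f : CuspForm Γ₀(N) 2} (hf0 : f ≠ 0)
    (hf : IsHeckeEigenvector N f) : qCoeff f 1 ≠ 0 := by
  intro h1
  refine hf0 (eq_zero_of_forall_qCoeff_eq_zero f fun n => ?_)
  induction n using Nat.strong_induction_on with
  | _ n ih =>
    rcases eq_or_ne n 0 with rfl | hn0
    · exact qCoeff_cusp_zero f
    rcases eq_or_ne n 1 with rfl | hn1
    · exact h1
    obtain ⟨p, hp, k, rfl⟩ := Nat.exists_prime_and_dvd hn1
    have hk : k ≠ 0 := by rintro rfl; simp at hn0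
    have hlt : k < p * k := lt_mul_of_one_lt_left (Nat.pos_of_ne_zero hk) hp.one_lt
    rw [mul_comm p k]
    by_cases hpN : p ∣ N
    · obtain ⟨c, hc⟩ := hf.2 p hp hpN
      rw [qCoeff_mul_of_eigen_bad hp hpN hc k, ih k hlt, mul_zero]
    · obtain ⟨c, hc⟩ := hf.1 p hp hpN
      have := qCoeff_mul_of_eigen_good hp hpN hc k
      rw [ih k hlt, mul_zero, ih (k / p) (lt_of_le_of_lt (Nat.div_le_self k p) hlt)] at this
      simpa using this

/-- A nonzero simultaneous eigenvector scales to a normalised eigenform. -/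
theorem exists_isNormalizedEigenform_of_eigenvector [NeZero N] {f : CuspForm Γ₀(N) 2}
    (hf0 : f ≠ 0) (hf : IsHeckeEigenvector N f) :
    ∃ (g : CuspForm Γ₀(N) 2) (c : ℂ), c ≠ 0 ∧ g.IsNormalizedEigenform ∧ f = c • g := by
  have h1 := qCoeff_one_ne_zero_of_isHeckeEigenvector hf0 hf
  refine ⟨(qCoeff f 1)⁻¹ • f, qCoeff f 1, h1,
    isNormalizedEigenform_of_isHeckeEigenvector ?_ (hf.smul _), (smul_inv_smul₀ h1 f).symm⟩
  rw [qCoeff_smul, inv_mul_cancel₀ h1]

end Fermat.Agent.HeckeEigen
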