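import Fermat.Prelude.Def_FLTPrelim_Modularity
import Fermat.Prelude.Def_ModularForm_HeckeOperatorForms
import Fermat.Prelude.Thm_CongruenceSubgroup_one_mem_strictPeriods_Gamma0
import Fermat.Prelude.Thm_ModularForm_sturm_bound_Gamma0
import Fermat.Prelude.Thm_ModularFormClass_qCoeff_heckeT
import Fermat.Prelude.Thm_ModularFormClass_qCoeff_heckeU
import Mathlib.LinearAlgebra.FiniteDimensional.Basic

/-!
# q-coefficients of cusp forms on `Γ₀(N)`

Linearity of the `q`-coefficients, the Sturm truncation map, finite dimensionality of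
`CuspForm Γ₀(N) k`, and the coefficient formulas for `heckeTLin`, `heckeULin`.
-/

set_option autoImplicit false

noncomputable section

open UpperHalfPlane ModularFormClass

namespace Fermat.Agent.HeckeEigen

variable {N : ℕ} {k : ℤ}

local notation "Γ₀(" N ")" => CongruenceSubgroup.Gamma0 N

theorem one_mem_periods (N : ℕ) :
    (1 : ℝ) ∈ (Subgroup.map (Matrix.SpecialLinearGroup.mapGL ℝ) Γ₀(N)).strictPeriods :=
  CongruenceSubgroup.one_mem_strictPeriods_Gamma0 N

/-- Coefficients are additive. -/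
theorem qCoeff_add (f g : CuspForm Γ₀(N) k) (n : ℕ) :
    qCoeff ⇑(f + g) n = qCoeff ⇑f n + qCoeff ⇑g n := by
  simp only [qCoeff, FunLike.coe_add]
  rw [ModularForm.qExpansion_add one_pos (one_mem_periods N) f g, map_add]

/-- Coefficients are homogeneous. -/
theorem qCoeff_smul (c : ℂ) (f : CuspForm Γ₀(N) k) (n : ℕ) :
    qCoeff ⇑(c • f) n = c * qCoeff ⇑f n := by
  simp only [qCoeff, FunLike.coe_smul]
  rw [ModularForm.qExpansion_smul one_pos (one_mem_periods N) c f]
  simp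

/-- The `n`-th `q`-coefficient, as a linear functional on cusp forms. -/
def qCoeffLin (N : ℕ) (k : ℤ) (n : ℕ) : CuspForm Γ₀(N) k →ₗ[ℂ] ℂ where
  toFun f := qCoeff ⇑f n
  map_add' f g := qCoeff_add f g n
  map_smul' c f := qCoeff_smul c f n

/-- `qCoeffLin` takes the coefficient. -/
@[simp] theorem qCoeffLin_apply (n : ℕ) (f : CuspForm Γ₀(N) k) :
    qCoeffLin N k n f = qCoeff ⇑f n := rfl

/-- The zero form has zero coefficients. -/
theorem qCoeff_zero_form (n : ℕ) : qCoeff ⇑(0 : CuspForm Γ₀(N) k) n = 0 :=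
  map_zero (qCoeffLin N k n)

/-- Coefficients commute with subtraction. -/
theorem qCoeff_sub (f g : CuspForm Γ₀(N) k) (n : ℕ) :
    qCoeff ⇑(f - g) n = qCoeff ⇑f n - qCoeff ⇑g n :=
  map_sub (qCoeffLin N k n) f g

/-- Coefficients commute with integer multiples. -/
theorem qCoeff_zsmul (c : ℤ) (f : CuspForm Γ₀(N) k) (n : ℕ) :
    qCoeff ⇑(c • f) n = c * qCoeff ⇑f n :=
  (map_zsmul (qCoeffLin N k n) c f).trans (zsmul_eq_mul _ _)

/-- Coefficients commute with finite sums. -/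
theorem qCoeff_sum {ι : Type*} (s : Finset ι) (f : ι → CuspForm Γ₀(N) k) (n : ℕ) :
    qCoeff ⇑(∑ i ∈ s, f i) n = ∑ i ∈ s, qCoeff ⇑(f i) n :=
  map_sum (qCoeffLin N k n) f s

/-- A cusp form has no constant term. -/
theorem qCoeff_cusp_zero (f : CuspForm Γ₀(N) k) : qCoeff ⇑f 0 = 0 :=
  CuspFormClass.qExpansion_coeff_zero f one_pos (one_mem_periods N)

/-- The Sturm bound for weight `k` and level `Γ₀(N)`. -/
def sturmB (N : ℕ) (k : ℤ) : ℕ := (k * (Γ₀(N)).index).toNat / 12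

/-- The truncated `q`-expansion up to the Sturm bound. -/
def truncLin (N : ℕ) (k : ℤ) : CuspForm Γ₀(N) k →ₗ[ℂ] (Fin (sturmB N k + 1) → ℂ) :=
  LinearMap.pi fun i => qCoeffLin N k i

@[simp] theorem truncLin_apply (f : CuspForm Γ₀(N) k) (i : Fin (sturmB N k + 1)) :
    truncLin N k f i = qCoeff ⇑f i := rfl

theorem eq_zero_of_qCoeff_eq_zero_le [NeZero N] (f : CuspForm Γ₀(N) k)
    (h : ∀ n ≤ sturmB N k, qCoeff ⇑f n = 0) : f = 0 := by
  have hmf : (ModularFormClass.modularForm f : ModularForm Γ₀(N) k) = 0 := by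
    refine ModularForm.sturm_bound_Gamma0 N _ fun n hn ↦ ?_
    simpa [qCoeff] using h n hn
  have hcoe : (⇑f : ℍ → ℂ) = 0 := by
    simpa using congrArg (fun F : ModularForm Γ₀(N) k ↦ (⇑F : ℍ → ℂ)) hmf
  exact DFunLike.coe_injective (hcoe.trans FunLike.coe_zero.symm)

/-- A form with zero expansion is zero. -/
theorem eq_zero_of_forall_qCoeff_eq_zero [NeZero N] (f : CuspForm Γ₀(N) k)
    (h : ∀ n, qCoeff ⇑f n = 0) : f = 0 :=
  eq_zero_of_qCoeff_eq_zero_le f fun n _ => h n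

/-- Cusp forms with equal `q`-coefficients are equal. -/
theorem ext_qCoeff [NeZero N] {f g : CuspForm Γ₀(N) k}
    (h : ∀ n, qCoeff ⇑f n = qCoeff ⇑g n) : f = g :=
  sub_eq_zero.mp <| eq_zero_of_forall_qCoeff_eq_zero _ fun n => by rw [qCoeff_sub, h, sub_self]

/-- A form is determined by finitely many coefficients. -/
theorem truncLin_injective (N : ℕ) [NeZero N] (k : ℤ) : Function.Injective (truncLin N k) :=
  (injective_iff_map_eq_zero _).mpr fun f hf => eq_zero_of_qCoeff_eq_zero_le f fun n hn => by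
    simpa using congrFun hf ⟨n, Nat.lt_succ_of_le hn⟩

instance finiteDimensional_cuspForm (N : ℕ) [NeZero N] (k : ℤ) :
    FiniteDimensional ℂ (CuspForm Γ₀(N) k) :=
  FiniteDimensional.of_injective (truncLin N k) (truncLin_injective N k)

/-- The coefficients of `T_p f`. -/
theorem qCoeff_heckeTLin {p : ℕ} (hp : p.Prime) (hpN : ¬ p ∣ N) (f : CuspForm Γ₀(N) k) (n : ℕ) :
    qCoeff ⇑(CuspForm.heckeTLin k hp hpN f) n
      = qCoeff ⇑f (n * p) + if p ∣ n then (p : ℂ) ^ (k - 1) * qCoeff ⇑f (n / p) else 0 := by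
  rw [CuspForm.coe_heckeTLin_apply,
    ModularFormClass.qCoeff_heckeT f (one_mem_periods N) hp.ne_zero n]
  rfl

/-- The `n`-th coefficient of `U_p f` is the `n p`-th one of `f`. -/
theorem qCoeff_heckeULin [NeZero N] {p : ℕ} (hp : p ≠ 0) (hpN : p ∣ N) (f : CuspForm Γ₀(N) k)
    (n : ℕ) : qCoeff ⇑(CuspForm.heckeULin k hpN f) n = qCoeff ⇑f (n * p) := by
  rw [CuspForm.coe_heckeULin_apply,
    ModularFormClass.qCoeff_heckeU f (one_mem_periods N) hp n]
  rfl

/-- The first coefficient of `T_p f` is `a_p`. -/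
theorem qCoeff_one_heckeTLin {p : ℕ} (hp : p.Prime) (hpN : ¬ p ∣ N) (f : CuspForm Γ₀(N) k) :
    qCoeff ⇑(CuspForm.heckeTLin k hp hpN f) 1 = qCoeff ⇑f p := by
  rw [qCoeff_heckeTLin, if_neg hp.not_dvd_one, add_zero, one_mul]

/-- The first coefficient of `U_p f` is `a_p`. -/
theorem qCoeff_one_heckeULin [NeZero N] {p : ℕ} (hp : p ≠ 0) (hpN : p ∣ N)
    (f : CuspForm Γ₀(N) k) : qCoeff ⇑(CuspForm.heckeULin k hpN f) 1 = qCoeff ⇑f p := by
  rw [qCoeff_heckeULin hp, one_mul]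

end Fermat.Agent.HeckeEigen
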